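/-
P-MW block E, row 906 MW-E-DESC1 (helper69): linear disjointness and Galois-fixed elements.

* `linDisj : Fermat.Agent.H23.MWE.LinDisjStatement` : `ℚ`-linearly independent elements of `F₀`
  stay linearly independent over `ℚ̄` in `ℚ̄ · F₀`.
* `fixed : Fermat.Agent.H23.MWE.FixedStatement` : the Galois-fixed elements of `ℚ̄ · F₀` are the
  elements of `F₀`.

Auxiliary (reusable):
* `mem_span_of_mem_laurentBaseChange` : `ℚ̄ · F₀` is the `ℚ̄`-span of the image of `F₀`
  (`ℚ̄ / ℚ` is algebraic, so the ring compositum is a field);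
* `mapCoeff lam` : the coefficientwise map `ℚ̄((q)) → ℚ((q))` of a `ℚ`-linear functional
  `lam : ℚ̄ → ℚ`; it maps `ℚ̄ · F₀` into `F₀` (`mapCoeff_mem`).
-/
import Fermat.Agent.H23.MWE.Interfaces
import Fermat.Agent.H69.CoeffMapIndep

set_option autoImplicit false

noncomputable section

open ModularCurve AlgebraicCurve IntermediateField

namespace Fermat.Agent.H69.MWE

open Fermat.Agent.H23.MWE
open Fermat.Agent.H92.MW (QQbar)

/-! ### Linear disjointness -/

/-- Linear independence over `ℚ` does not depend on the `ℚ`-module structure. -/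
theorem linearIndependent_rat_congr {ι M : Type*} [AddCommGroup M] (i₁ i₂ : Module ℚ M)
    (f : ι → M) (h : @LinearIndependent ι ℚ M f _ _ i₁) : @LinearIndependent ι ℚ M f _ _ i₂ := by
  obtain rfl : i₁ = i₂ := Subsingleton.elim _ _
  exact h

/-- Scalar multiplication in `ℚ̄ · F₀`. -/
theorem coe_smul_bar (F₀ : IntermediateField ℚ (LaurentSeries ℚ)) (c : QQbar) (x : FBar F₀) :
    ((c • x : FBar F₀) : LaurentSeries QQbar) = HahnSeries.C c * (x : LaurentSeries QQbar) := by
  rw [Algebra.smul_def]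
  show algebraMap QQbar (LaurentSeries QQbar) c * (x : LaurentSeries QQbar) = _
  rw [algebraMap_laurentSeries_eq_single]
  rfl

/-- **MW-E-DESC (1).** -/
theorem linDisj : LinDisjStatement := by
  intro F₀ ι f hf
  have h1 : LinearIndependent ℚ (⇑(AddSubgroupClass.subtype F₀) ∘ f) :=
    hf.map_of_injective_injective (id : ℚ → ℚ) (AddSubgroupClass.subtype F₀)
      (fun r h => h) (fun m h => Subtype.ext h) (fun r m => map_rat_smul _ r m)
  have h1' : LinearIndependent ℚ (fun i => ((f i : ↥F₀) : LaurentSeries ℚ)) :=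
    linearIndependent_rat_congr _ _ _ h1
  have h2 := Fermat.Agent.H69.linearIndependent_coeffMap (algebraMap ℚ QQbar)
    (fun i => ((f i : ↥F₀) : LaurentSeries ℚ)) h1'
  rw [linearIndependent_iff'] at h2 ⊢
  intro s c hc i hi
  refine h2 s c ?_ i hi
  have h3 : ((∑ i ∈ s, c i • toBar F₀ (f i) : FBar F₀) : LaurentSeries QQbar)
      = ((0 : FBar F₀) : LaurentSeries QQbar) :=
    congrArg (fun w : FBar F₀ => (w : LaurentSeries QQbar)) hc
  rw [show ((∑ i ∈ s, c i • toBar F₀ (f i) : FBar F₀) : LaurentSeries QQbar)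
      = ∑ i ∈ s, ((c i • toBar F₀ (f i) : FBar F₀) : LaurentSeries QQbar) from
        map_sum (laurentBaseChange QQbar F₀).val _ _] at h3
  rw [show ((0 : FBar F₀) : LaurentSeries QQbar) = 0 from rfl] at h3
  rw [← h3]
  refine Finset.sum_congr rfl fun j _ => ?_
  rw [coe_smul_bar, HahnSeries.C_mul_eq_smul]
  rfl

/-! ### `ℚ̄ · F₀` is the span of `F₀` -/

variable (F₀ : IntermediateField ℚ (LaurentSeries ℚ))

/-- The `ℚ̄`-span of the image of `F₀` in `ℚ̄((q))`. -/
def spanBar : Submodule QQbar (LaurentSeries QQbar) :=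
  Submodule.span QQbar (⇑(coeffEmb QQbar) '' (F₀ : Set (LaurentSeries ℚ)))

theorem coeffEmb_mem_spanBar {z : LaurentSeries ℚ} (hz : z ∈ F₀) :
    coeffEmb QQbar z ∈ spanBar F₀ :=
  Submodule.subset_span ⟨z, hz, rfl⟩

theorem C_mul_mem_spanBar (c : QQbar) {x : LaurentSeries QQbar} (hx : x ∈ spanBar F₀) :
    HahnSeries.C c * x ∈ spanBar F₀ := by
  rw [HahnSeries.C_mul_eq_smul]
  exact Submodule.smul_mem _ c hx

theorem mul_mem_spanBar {x y : LaurentSeries QQbar} (hx : x ∈ spanBar F₀)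
    (hy : y ∈ spanBar F₀) : x * y ∈ spanBar F₀ := by
  induction hx using Submodule.span_induction with
  | mem a ha =>
    obtain ⟨a', ha', rfl⟩ := ha
    induction hy using Submodule.span_induction with
    | mem b hb =>
      obtain ⟨b', hb', rfl⟩ := hb
      rw [← map_mul]
      exact coeffEmb_mem_spanBar F₀ (mul_mem ha' hb')
    | zero =>
      rw [mul_zero]
      exact zero_mem _
    | add u v _ _ hu hv =>
      rw [mul_add]
      exact add_mem hu hv
    | smul c u _ hu =>
      rw [← HahnSeries.C_mul_eq_smul, mul_left_comm]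
      exact C_mul_mem_spanBar F₀ c hu
  | zero =>
    rw [zero_mul]
    exact zero_mem _
  | add u v _ _ hu hv =>
    rw [add_mul]
    exact add_mem hu hv
  | smul c u _ hu =>
    rw [← HahnSeries.C_mul_eq_smul, mul_assoc]
    exact C_mul_mem_spanBar F₀ c hu

theorem algebraMap_mem_spanBar (c : QQbar) :
    algebraMap QQbar (LaurentSeries QQbar) c ∈ spanBar F₀ := by
  have h1 : algebraMap QQbar (LaurentSeries QQbar) c
      = HahnSeries.C c * coeffEmb QQbar (1 : LaurentSeries ℚ) := by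
    rw [map_one, mul_one, algebraMap_laurentSeries_eq_single]
    rfl
  rw [h1]
  exact C_mul_mem_spanBar F₀ c (coeffEmb_mem_spanBar F₀ (one_mem F₀))

/-- **`ℚ̄ · F₀` is the `ℚ̄`-span of the image of `F₀`.** -/
theorem mem_span_of_mem_laurentBaseChange {x : LaurentSeries QQbar}
    (hx : x ∈ laurentBaseChange QQbar F₀) : x ∈ spanBar F₀ := by
  let φ : ↥F₀ →+* LaurentSeries QQbar := (coeffEmb QQbar).comp (algebraMap ↥F₀ (LaurentSeries ℚ))
  let _ : Algebra ↥F₀ (LaurentSeries QQbar) := φ.toAlgebra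
  have hφ : ∀ f : ↥F₀, algebraMap ↥F₀ (LaurentSeries QQbar) f
      = coeffEmb QQbar (f : LaurentSeries ℚ) := fun _ => rfl
  -- the constants are algebraic over `F₀`
  have halg : ∀ y ∈ Set.range (algebraMap QQbar (LaurentSeries QQbar)), IsAlgebraic ↥F₀ y := by
    rintro _ ⟨c, rfl⟩
    obtain ⟨p, hp0, hp⟩ := (AlgebraicClosure.isAlgebraic ℚ).isAlgebraic c
    refine ⟨p.map (algebraMap ℚ ↥F₀),
      (Polynomial.map_ne_zero_iff (algebraMap ℚ ↥F₀).injective).mpr hp0, ?_⟩
    rw [Polynomial.aeval_def, Polynomial.eval₂_map]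
    have e : (algebraMap ↥F₀ (LaurentSeries QQbar)).comp (algebraMap ℚ ↥F₀)
        = (algebraMap QQbar (LaurentSeries QQbar)).comp (algebraMap ℚ QQbar) :=
      Subsingleton.elim _ _
    have hp' : Polynomial.eval₂ (algebraMap ℚ QQbar) c p = 0 := by
      rw [← hp, Polynomial.aeval_def]
      congr 1
    rw [e, ← Polynomial.hom_eval₂, hp', map_zero]
  have hA := IntermediateField.adjoin_toSubalgebra_of_isAlgebraic (F := ↥F₀) halg
  have hx' : x ∈ IntermediateField.adjoin ↥F₀
      (Set.range (algebraMap QQbar (LaurentSeries QQbar))) := by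
    rw [mem_laurentBaseChange_iff] at hx
    have hle : Subfield.closure (Set.range (algebraMap QQbar (LaurentSeries QQbar)) ∪
        (⇑(coeffEmb QQbar) '' (F₀ : Set (LaurentSeries ℚ))))
        ≤ (IntermediateField.adjoin ↥F₀
          (Set.range (algebraMap QQbar (LaurentSeries QQbar)))).toSubfield := by
      rw [Subfield.closure_le]
      rintro y (hy | ⟨z, hz, rfl⟩)
      · exact IntermediateField.subset_adjoin _ _ hy
      · have := (IntermediateField.adjoin ↥F₀
          (Set.range (algebraMap QQbar (LaurentSeries QQbar)))).algebraMap_mem ⟨z, hz⟩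
        rwa [hφ] at this
    exact hle hx
  have hx'' : x ∈ Algebra.adjoin ↥F₀ (Set.range (algebraMap QQbar (LaurentSeries QQbar))) := by
    rw [← hA]
    exact hx'
  clear hx hx'
  induction hx'' using Algebra.adjoin_induction with
  | mem y hy =>
    obtain ⟨c, rfl⟩ := hy
    exact algebraMap_mem_spanBar F₀ c
  | algebraMap f =>
    rw [hφ]
    exact coeffEmb_mem_spanBar F₀ f.2
  | add x y _ _ hx hy => exact add_mem hx hy
  | mul x y _ _ hx hy => exact mul_mem_spanBar F₀ hx hy

/-! ### Coefficientwise functionals -/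

/-- The coefficientwise map of a `ℚ`-linear functional `ℚ̄ → ℚ`. -/
def mapCoeff (lam : QQbar →ₗ[ℚ] ℚ) (x : LaurentSeries QQbar) : LaurentSeries ℚ :=
  x.map lam

@[simp]
theorem mapCoeff_coeff (lam : QQbar →ₗ[ℚ] ℚ) (x : LaurentSeries QQbar) (k : ℤ) :
    (mapCoeff lam x).coeff k = lam (x.coeff k) := rfl

theorem mapCoeff_zero (lam : QQbar →ₗ[ℚ] ℚ) : mapCoeff lam 0 = 0 := by
  ext k
  simp

theorem mapCoeff_add (lam : QQbar →ₗ[ℚ] ℚ) (x y : LaurentSeries QQbar) :
    mapCoeff lam (x + y) = mapCoeff lam x + mapCoeff lam y := by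
  ext k
  simp

theorem mapCoeff_smul (lam : QQbar →ₗ[ℚ] ℚ) (c : QQbar) (x : LaurentSeries QQbar) :
    mapCoeff lam (c • x) = mapCoeff (lam.comp (LinearMap.mulLeft ℚ c)) x := by
  ext k
  simp

theorem mapCoeff_coeffEmb (lam : QQbar →ₗ[ℚ] ℚ) (z : LaurentSeries ℚ) :
    mapCoeff lam (coeffEmb QQbar z) = HahnSeries.C (lam 1) * z := by
  ext k
  rw [mapCoeff_coeff, coeffEmb_coeff, HahnSeries.C_mul_eq_smul, HahnSeries.coeff_smul,
    Algebra.algebraMap_eq_smul_one, map_smul, smul_eq_mul, smul_eq_mul, mul_comm]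

theorem C_rat_mem (r : ℚ) : (HahnSeries.C r : LaurentSeries ℚ) ∈ F₀ := by
  have h : (HahnSeries.C r : LaurentSeries ℚ) = ((r : ℚ) : LaurentSeries ℚ) := by
    have := map_ratCast (HahnSeries.C : ℚ →+* LaurentSeries ℚ) r
    rwa [Rat.cast_id] at this
  rw [h]
  exact SubfieldClass.ratCast_mem F₀ r

/-- Coefficientwise functionals map the span of `F₀` into `F₀`. -/
theorem mapCoeff_mem_of_mem_spanBar {x : LaurentSeries QQbar} (hx : x ∈ spanBar F₀)
    (lam : QQbar →ₗ[ℚ] ℚ) : mapCoeff lam x ∈ F₀ := by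
  induction hx using Submodule.span_induction generalizing lam with
  | mem y hy =>
    obtain ⟨z, hz, rfl⟩ := hy
    rw [mapCoeff_coeffEmb]
    exact mul_mem (C_rat_mem F₀ _) hz
  | zero =>
    rw [mapCoeff_zero]
    exact zero_mem F₀
  | add x y _ _ hx hy =>
    rw [mapCoeff_add]
    exact add_mem (hx lam) (hy lam)
  | smul c x _ hx =>
    rw [mapCoeff_smul]
    exact hx _

/-- Coefficientwise functionals map `ℚ̄ · F₀` into `F₀`. -/
theorem mapCoeff_mem {x : LaurentSeries QQbar} (hx : x ∈ laurentBaseChange QQbar F₀)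
    (lam : QQbar →ₗ[ℚ] ℚ) : mapCoeff lam x ∈ F₀ :=
  mapCoeff_mem_of_mem_spanBar F₀ (mem_span_of_mem_laurentBaseChange F₀ hx) lam

/-- A `ℚ`-linear functional on `ℚ̄` with value `1` at `1`. -/
theorem exists_functional_one : ∃ lam : QQbar →ₗ[ℚ] ℚ, lam 1 = 1 := by
  have h : ¬ ∀ φ : Module.Dual ℚ QQbar, φ 1 = 0 := by
    rw [Module.forall_dual_apply_eq_zero_iff ℚ (1 : QQbar)]
    exact one_ne_zero
  push Not at h
  obtain ⟨φ, hφ⟩ := h
  refine ⟨(φ 1)⁻¹ • φ, ?_⟩
  rw [LinearMap.smul_apply, smul_eq_mul, inv_mul_cancel₀ hφ]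

/-- **Rational series in `ℚ̄ · F₀` lie in `F₀`.** -/
theorem mem_of_coeffEmb_mem {z : LaurentSeries ℚ}
    (hz : coeffEmb QQbar z ∈ laurentBaseChange QQbar F₀) : z ∈ F₀ := by
  obtain ⟨lam, hlam⟩ := exists_functional_one
  have h := mapCoeff_mem F₀ hz lam
  rwa [mapCoeff_coeffEmb, hlam, map_one, one_mul] at h

/-! ### Galois-fixed elements -/

/-- `ℚ̄ / ℚ` is Galois (for the algebra instance in use). -/
theorem isGalois_QQbar_mwe : IsGalois ℚ QQbar := by
  have h : (AlgebraicClosure.instAlgebra ℚ : Algebra ℚ (AlgebraicClosure ℚ)) =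
      DivisionRing.toRatAlgebra := Subsingleton.elim _ _
  rw [← h]
  infer_instance

/-- **MW-E-DESC (3).** -/
theorem fixed : FixedStatement := by
  intro F₀ v hv
  obtain ⟨lam, hlam⟩ := exists_functional_one
  have hG := isGalois_QQbar_mwe
  -- every coefficient of `v` is rational
  have hcoeff : ∀ k : ℤ, ∃ r : ℚ, algebraMap ℚ QQbar r = (v : LaurentSeries QQbar).coeff k := by
    intro k
    have hfix : ∀ σ : QQbar ≃ₐ[ℚ] QQbar, σ ((v : LaurentSeries QQbar).coeff k)
        = (v : LaurentSeries QQbar).coeff k := by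
      intro σ
      have h1 := congrArg (fun w : FBar F₀ => (w : LaurentSeries QQbar).coeff k) (hv σ)
      simp only [coe_arithmeticGalois_smul] at h1
      exact h1
    exact (InfiniteGalois.mem_range_algebraMap_iff_fixed _).mpr hfix
  have hv0 : coeffEmb QQbar (mapCoeff lam (v : LaurentSeries QQbar)) = (v : LaurentSeries QQbar) := by
    ext k
    obtain ⟨r, hr⟩ := hcoeff k
    have h1 : lam (algebraMap ℚ QQbar r) = r := by
      rw [Algebra.algebraMap_eq_smul_one, map_smul, hlam, smul_eq_mul, mul_one]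
    rw [coeffEmb_coeff, mapCoeff_coeff, ← hr, h1]
  have hmem : mapCoeff lam (v : LaurentSeries QQbar) ∈ F₀ := mapCoeff_mem F₀ v.2 lam
  exact ⟨⟨mapCoeff lam (v : LaurentSeries QQbar), hmem⟩, Subtype.ext hv0⟩

end Fermat.Agent.H69.MWE

end
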